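import Mathlib
import Fermat.Prelude.Def_FLTPrelim_Ramification

set_option autoImplicit false

noncomputable section

/-! Discreteness of a valuation ring of an algebraic extension of `ℚ` on finite extensions. -/

namespace Fermat.Agent.GaussVal

section Disc

variable {K : Type*} [Field K] (A : ValuationSubring K) {ℓ : ℕ}

theorem val_natCast_le_one (n : ℕ) : A.valuation (n : K) ≤ 1 := by
  rw [ValuationSubring.valuation_le_one_iff]
  exact natCast_mem A n

theorem val_intCast_le_one (n : ℤ) : A.valuation (n : K) ≤ 1 := by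
  rw [ValuationSubring.valuation_le_one_iff]
  exact intCast_mem A n

theorem val_prime_lt_one (hA : A.LiesOverPrime ℓ) : A.valuation (ℓ : K) < 1 := by
  rw [ValuationSubring.LiesOverPrime, ValuationSubring.mem_nonunits_iff] at hA
  exact hA

theorem val_prime_ne_zero [CharZero K] (hℓ : ℓ.Prime) : A.valuation (ℓ : K) ≠ 0 := by
  rw [Valuation.ne_zero_iff]
  exact_mod_cast hℓ.ne_zero

theorem val_natCast_eq_one_of_coprime (hA : A.LiesOverPrime ℓ) {n : ℕ} (hn : n.Coprime ℓ) :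
    A.valuation (n : K) = 1 := by
  refine le_antisymm (val_natCast_le_one A n) ?_
  by_contra hlt
  push Not at hlt
  have hb := Nat.gcd_eq_gcd_ab n ℓ
  rw [Nat.Coprime] at hn
  rw [hn] at hb
  have hK : (1 : K) = (n : K) * (Nat.gcdA n ℓ : K) + (ℓ : K) * (Nat.gcdB n ℓ : K) := by
    have := congrArg (fun z : ℤ => (z : K)) hb
    push_cast at this
    exact this
  have h1 : A.valuation ((n : K) * (Nat.gcdA n ℓ : K) + (ℓ : K) * (Nat.gcdB n ℓ : K)) < 1 := by
    apply Valuation.map_add_lt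
    · rw [map_mul]
      exact mul_lt_one_of_lt_of_le hlt (val_intCast_le_one A _)
    · rw [map_mul]
      exact mul_lt_one_of_lt_of_le (val_prime_lt_one A hA) (val_intCast_le_one A _)
  rw [← hK, map_one] at h1
  exact lt_irrefl _ h1

variable [CharZero K]

theorem exists_zpow_nat (hℓ : ℓ.Prime) (hA : A.LiesOverPrime ℓ) {n : ℕ} (hn : n ≠ 0) :
    ∃ k : ℤ, A.valuation (n : K) = A.valuation (ℓ : K) ^ k := by
  obtain ⟨e, m, hm, rfl⟩ := Nat.exists_eq_pow_mul_and_not_dvd hn ℓ hℓ.ne_one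
  refine ⟨e, ?_⟩
  have hc : m.Coprime ℓ := (Nat.Prime.coprime_iff_not_dvd hℓ).mpr hm |>.symm
  push_cast
  rw [map_mul, map_pow, val_natCast_eq_one_of_coprime A hA hc, mul_one, zpow_natCast]

theorem exists_zpow_int (hℓ : ℓ.Prime) (hA : A.LiesOverPrime ℓ) {n : ℤ} (hn : n ≠ 0) :
    ∃ k : ℤ, A.valuation (n : K) = A.valuation (ℓ : K) ^ k := by
  obtain ⟨k, hk⟩ := exists_zpow_nat A hℓ hA (n := n.natAbs) (by simpa using hn)
  refine ⟨k, ?_⟩
  rw [← hk]
  rcases Int.natAbs_eq n with h | h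
  · conv_lhs => rw [h]
    simp
  · conv_lhs => rw [h]
    simp [Valuation.map_neg]

theorem exists_zpow_rat (hℓ : ℓ.Prime) (hA : A.LiesOverPrime ℓ) {x : ℚ} (hx : x ≠ 0) :
    ∃ k : ℤ, A.valuation (x : K) = A.valuation (ℓ : K) ^ k := by
  obtain ⟨k₁, h₁⟩ := exists_zpow_int A hℓ hA (n := x.num) (by simpa using hx)
  obtain ⟨k₂, h₂⟩ := exists_zpow_nat A hℓ hA (n := x.den) x.den_nz
  refine ⟨k₁ - k₂, ?_⟩
  rw [Rat.cast_def, map_div₀, h₁, h₂, zpow_sub₀ (val_prime_ne_zero A hℓ)]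

/-- an algebraic element has a positive power of bounded exponent whose valuation is a power of
that of `ℓ`. -/
theorem exists_pow_zpow (hℓ : ℓ.Prime) (hA : A.LiesOverPrime ℓ) {x : K} (hx : x ≠ 0)
    {P : Polynomial ℚ} (hP : P ≠ 0) (h0 : Polynomial.aeval x P = 0) :
    ∃ m : ℕ, 0 < m ∧ m ≤ P.natDegree ∧ ∃ k : ℤ,
      A.valuation x ^ m = A.valuation (ℓ : K) ^ k := by
  classical
  set s := P.support with hs
  have hsne : s.Nonempty := Polynomial.support_nonempty.mpr hP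
  obtain ⟨i, hi, hmax⟩ := Finset.exists_max_image s
    (fun i => A.valuation ((P.coeff i : K) * x ^ i)) hsne
  have hsum : ∑ i ∈ s, (P.coeff i : K) * x ^ i = 0 := by
    rw [← h0, Polynomial.aeval_eq_sum_range, hs]
    rw [Finset.sum_subset (Polynomial.supp_subset_range_natDegree_succ)]
    · apply Finset.sum_congr rfl
      intro j _
      rw [Algebra.smul_def]
      simp
    · intro j _ hj
      rw [Polynomial.notMem_support_iff] at hj
      simp [hj]
  have hi0 : (P.coeff i : K) * x ^ i ≠ 0 := by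
    refine mul_ne_zero ?_ (pow_ne_zero _ hx)
    rw [Polynomial.mem_support_iff] at hi
    exact_mod_cast hi
  -- there is another index with the same valuation
  have hex : ∃ j ∈ s, j ≠ i ∧ A.valuation ((P.coeff j : K) * x ^ j)
      = A.valuation ((P.coeff i : K) * x ^ i) := by
    by_contra hcon
    push Not at hcon
    have hlt : A.valuation (∑ j ∈ s.erase i, (P.coeff j : K) * x ^ j)
        < A.valuation ((P.coeff i : K) * x ^ i) := by
      apply Valuation.map_sum_lt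
      · rw [Valuation.ne_zero_iff]; exact hi0
      · intro j hj
        rw [Finset.mem_erase] at hj
        exact lt_of_le_of_ne (hmax j hj.2) (hcon j hj.2 hj.1)
    have h1 : (P.coeff i : K) * x ^ i = - ∑ j ∈ s.erase i, (P.coeff j : K) * x ^ j := by
      rw [← Finset.add_sum_erase s _ hi] at hsum
      exact eq_neg_of_add_eq_zero_left hsum
    rw [h1, Valuation.map_neg] at hlt
    exact lt_irrefl _ hlt
  obtain ⟨j, hj, hji, hval⟩ := hex
  have key : ∀ a b : ℕ, a ∈ s → b ∈ s → a < b →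
      A.valuation ((P.coeff a : K) * x ^ a) = A.valuation ((P.coeff b : K) * x ^ b) →
      ∃ m : ℕ, 0 < m ∧ m ≤ P.natDegree ∧ ∃ k : ℤ,
      A.valuation x ^ m = A.valuation (ℓ : K) ^ k := by
    intro a b ha hb hab h
    refine ⟨b - a, by omega, ?_, ?_⟩
    · have := Polynomial.le_natDegree_of_mem_supp b hb
      omega
    · rw [Polynomial.mem_support_iff] at ha hb
      obtain ⟨k₁, h₁⟩ := exists_zpow_rat A hℓ hA ha
      obtain ⟨k₂, h₂⟩ := exists_zpow_rat A hℓ hA hb
      refine ⟨k₁ - k₂, ?_⟩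
      have hx' : A.valuation x ≠ 0 := (Valuation.ne_zero_iff _).mpr hx
      rw [map_mul, map_mul, map_pow, map_pow, h₁, h₂] at h
      have hb' : b = a + (b - a) := by omega
      rw [hb', pow_add] at h
      rw [zpow_sub₀ (val_prime_ne_zero A hℓ), eq_div_iff (zpow_ne_zero _ (val_prime_ne_zero A hℓ))]
      have hxa : A.valuation x ^ a ≠ 0 := pow_ne_zero _ hx'
      have : A.valuation x ^ a * (A.valuation (ℓ : K) ^ k₁)
          = A.valuation x ^ a * (A.valuation x ^ (b - a) * A.valuation (ℓ : K) ^ k₂) := by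
        rw [mul_comm (A.valuation x ^ a), h]
        ac_rfl
      exact (mul_left_cancel₀ hxa this).symm
  rcases lt_or_gt_of_ne hji with h | h
  · exact key j i hj hi h hval
  · exact key i j hi hj h hval.symm

/-- Uniform version on a finite dimensional `ℚ`-subalgebra. -/
theorem exists_pow_factorial (hℓ : ℓ.Prime) (hA : A.LiesOverPrime ℓ)
    (L : IntermediateField ℚ K) [FiniteDimensional ℚ L] {x : K} (hxL : x ∈ L) (hx : x ≠ 0) :
    ∃ k : ℤ, A.valuation x ^ ((Module.finrank ℚ L).factorial) = A.valuation (ℓ : K) ^ k := by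
  have hint : IsIntegral ℚ (⟨x, hxL⟩ : L) := Algebra.IsIntegral.isIntegral _
  obtain ⟨m, hm0, hm, k, hk⟩ := exists_pow_zpow A hℓ hA hx
    (P := minpoly ℚ (⟨x, hxL⟩ : L)) (minpoly.ne_zero hint) (by
      have h := minpoly.aeval ℚ (⟨x, hxL⟩ : L)
      have h2 := congrArg (algebraMap L K) h
      rw [map_zero, ← Polynomial.aeval_algebraMap_apply] at h2
      exact h2)
  have hle : m ≤ Module.finrank ℚ L := hm.trans (minpoly.natDegree_le _)
  obtain ⟨c, hc⟩ := Nat.dvd_factorial hm0 hle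
  refine ⟨k * c, ?_⟩
  rw [hc, pow_mul, hk, zpow_mul, zpow_natCast]

/-- In a finite extension of `ℚ`, a bounded set containing a nonzero element contains an element of
maximal valuation. -/
theorem exists_max (hℓ : ℓ.Prime) (hA : A.LiesOverPrime ℓ)
    (L : IntermediateField ℚ K) [FiniteDimensional ℚ L] (S : Set K) (hSL : ∀ x ∈ S, x ∈ L)
    {c : K} (hcL : c ∈ L) (hb : ∀ x ∈ S, A.valuation x ≤ A.valuation c)
    (hne : ∃ x ∈ S, x ≠ 0) :
    ∃ x₀ ∈ S, x₀ ≠ 0 ∧ ∀ x ∈ S, A.valuation x ≤ A.valuation x₀ := by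
  classical
  obtain ⟨x₁, hx₁, hx₁0⟩ := hne
  have hc0 : c ≠ 0 := by
    rintro rfl
    have := hb x₁ hx₁
    rw [map_zero, le_zero_iff, Valuation.zero_iff] at this
    exact hx₁0 this
  set n := (Module.finrank ℚ L).factorial with hn
  have hn0 : n ≠ 0 := Nat.factorial_ne_zero _
  obtain ⟨kc, hkc⟩ := exists_pow_factorial A hℓ hA L hcL hc0
  have hl0 : A.valuation (ℓ : K) ≠ 0 := val_prime_ne_zero A hℓ
  have hl1 : A.valuation (ℓ : K) < 1 := val_prime_lt_one A hA
  have hlpos : 0 < A.valuation (ℓ : K) := zero_lt_iff.mpr hl0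
  -- the set of exponents
  let T : Set ℤ := {k | ∃ x ∈ S, x ≠ 0 ∧ A.valuation x ^ n = A.valuation (ℓ : K) ^ k}
  have hTne : T.Nonempty := by
    obtain ⟨k, hk⟩ := exists_pow_factorial A hℓ hA L (hSL x₁ hx₁) hx₁0
    exact ⟨k, x₁, hx₁, hx₁0, hk⟩
  have hTb : ∀ k ∈ T, kc ≤ k := by
    rintro k ⟨x, hx, hx0, hk⟩
    have h1 : A.valuation x ^ n ≤ A.valuation c ^ n := pow_le_pow_left' (hb x hx) n
    rw [hk, hkc] at h1
    exact (zpow_le_zpow_iff_right_of_lt_one₀ hlpos hl1).mp h1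
  obtain ⟨k₀, hk₀T, hk₀⟩ : ∃ k₀ ∈ T, ∀ k ∈ T, k₀ ≤ k := by
    obtain ⟨k₀, h₁, h₂⟩ := Int.exists_least_of_bdd (P := fun k => k ∈ T)
      ⟨kc, fun z hz => hTb z hz⟩ hTne
    exact ⟨k₀, h₁, h₂⟩
  obtain ⟨x₀, hx₀, hx₀0, hx₀k⟩ := hk₀T
  refine ⟨x₀, hx₀, hx₀0, fun x hx => ?_⟩
  rcases eq_or_ne x 0 with rfl | hx0
  · simp
  obtain ⟨k, hk⟩ := exists_pow_factorial A hℓ hA L (hSL x hx) hx0
  have hkk : k₀ ≤ k := hk₀ k ⟨x, hx, hx0, hk⟩
  have h2 : A.valuation x ^ n ≤ A.valuation x₀ ^ n := by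
    rw [hk, hx₀k]
    exact (zpow_le_zpow_iff_right_of_lt_one₀ hlpos hl1).mpr hkk
  exact (pow_le_pow_iff_left₀ zero_le zero_le hn0).mp h2

end Disc

end Fermat.Agent.GaussVal
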