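import Mathlib
import Fermat.Prelude.Def_ModularCurve_ReductionModL
import Fermat.Agent.GaussVal.Discrete

set_option autoImplicit false

noncomputable section

/-! The Gauss valuation ring of `K((q))` attached to a valuation ring `A` of `K`, and its
reduction map to `k((q))`. -/

open ModularCurve HahnSeries

namespace Fermat.Agent.GaussVal

section Basic

variable {K : Type*} [Field K] (A : ValuationSubring K)

/-- inclusion of the integral series -/
abbrev incl : LaurentSeries A →+* LaurentSeries K := coeffMap A.subtype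

/-- reduction of the integral series -/
abbrev redS : LaurentSeries A →+* LaurentSeries (IsLocalRing.ResidueField A) :=
  coeffMap (IsLocalRing.residue A)

theorem incl_injective : Function.Injective (incl A) := by
  intro x y h
  ext n
  have := congrArg (fun z : LaurentSeries K => z.coeff n) h
  simpa using this

theorem exists_incl_of_coeff_mem {y : LaurentSeries K} (hy : ∀ n, y.coeff n ∈ A) :
    ∃ Y : LaurentSeries A, incl A Y = y := by
  refine ⟨⟨fun n => ⟨y.coeff n, hy n⟩, ?_⟩, ?_⟩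
  · refine y.isPWO_support'.mono ?_
    intro n hn
    simp only [Function.mem_support, ne_eq] at hn ⊢
    intro h
    exact hn (Subtype.ext h)
  · ext n
    rfl

theorem redS_eq_zero_iff {Y : LaurentSeries A} :
    redS A Y = 0 ↔ ∀ n, A.valuation ((incl A Y).coeff n) < 1 := by
  constructor
  · intro h n
    have h1 := congrArg (fun z : LaurentSeries (IsLocalRing.ResidueField A) => z.coeff n) h
    simp only [coeffMap_coeff, HahnSeries.coeff_zero] at h1
    rw [IsLocalRing.residue_eq_zero_iff] at h1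
    exact (A.valuation_lt_one_iff _).mp h1
  · intro h
    ext n
    simp only [coeffMap_coeff, HahnSeries.coeff_zero]
    rw [IsLocalRing.residue_eq_zero_iff]
    exact (A.valuation_lt_one_iff _).mpr (h n)

/-- The Gauss valuation ring inside `K((q))` : quotients `Y₁/Y₂` of integral series with
`Y₂` of nonzero reduction. -/
def gaussSubring : Subring (LaurentSeries K) where
  carrier := {y | ∃ Y₁ Y₂ : LaurentSeries A, redS A Y₂ ≠ 0 ∧ y * incl A Y₂ = incl A Y₁}
  mul_mem' := by
    rintro x y ⟨X₁, X₂, hX, hx⟩ ⟨Y₁, Y₂, hY, hy⟩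
    refine ⟨X₁ * Y₁, X₂ * Y₂, ?_, ?_⟩
    · rw [map_mul]; exact mul_ne_zero hX hY
    · rw [map_mul, map_mul, ← hx, ← hy]; ring
  one_mem' := ⟨1, 1, by rw [map_one]; exact one_ne_zero, by rw [map_one, one_mul]⟩
  add_mem' := by
    rintro x y ⟨X₁, X₂, hX, hx⟩ ⟨Y₁, Y₂, hY, hy⟩
    refine ⟨X₁ * Y₂ + Y₁ * X₂, X₂ * Y₂, ?_, ?_⟩
    · rw [map_mul]; exact mul_ne_zero hX hY
    · rw [map_add, map_mul, map_mul, map_mul, ← hx, ← hy]; ring
  zero_mem' := ⟨0, 1, by rw [map_one]; exact one_ne_zero, by rw [map_zero, zero_mul]⟩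
  neg_mem' := by
    rintro x ⟨X₁, X₂, hX, hx⟩
    exact ⟨-X₁, X₂, hX, by rw [map_neg, ← hx]; ring⟩

variable {A}

theorem mem_gaussSubring {y : LaurentSeries K} :
    y ∈ gaussSubring A ↔
      ∃ Y₁ Y₂ : LaurentSeries A, redS A Y₂ ≠ 0 ∧ y * incl A Y₂ = incl A Y₁ := Iff.rfl

theorem incl_ne_zero {Y : LaurentSeries A} (hY : redS A Y ≠ 0) : incl A Y ≠ 0 := by
  intro h
  apply hY
  have : Y = 0 := incl_injective A (by rw [h, map_zero])
  rw [this, map_zero]

theorem incl_mem (Y : LaurentSeries A) : incl A Y ∈ gaussSubring A :=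
  ⟨Y, 1, by rw [map_one]; exact one_ne_zero, by rw [map_one, mul_one]⟩

theorem inv_mem_of_primitive {Y : LaurentSeries A} (hY : redS A Y ≠ 0) :
    (incl A Y)⁻¹ ∈ gaussSubring A :=
  ⟨1, Y, hY, by rw [map_one]; exact inv_mul_cancel₀ (incl_ne_zero hY)⟩

theorem red_unique {y : LaurentSeries K} {Y₁ Y₂ Z₁ Z₂ : LaurentSeries A} (hY : redS A Y₂ ≠ 0)
    (hZ : redS A Z₂ ≠ 0) (hy : y * incl A Y₂ = incl A Y₁) (hz : y * incl A Z₂ = incl A Z₁) :
    redS A Y₁ / redS A Y₂ = redS A Z₁ / redS A Z₂ := by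
  have h : Y₁ * Z₂ = Z₁ * Y₂ := by
    apply incl_injective A
    rw [map_mul, map_mul, ← hy, ← hz]; ring
  rw [div_eq_div_iff hY hZ, ← map_mul, ← map_mul, h]

variable (A)

/-- The reduction map of the Gauss valuation ring. -/
def gaussRed : gaussSubring A →+* LaurentSeries (IsLocalRing.ResidueField A) where
  toFun y := redS A (mem_gaussSubring.mp y.2).choose /
    redS A (mem_gaussSubring.mp y.2).choose_spec.choose
  map_one' := by
    have h := (mem_gaussSubring.mp (1 : gaussSubring A).2).choose_spec.choose_spec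
    rw [red_unique h.1 (Z₁ := 1) (Z₂ := 1) (by rw [map_one]; exact one_ne_zero) h.2 (by simp)]
    simp
  map_zero' := by
    have h := (mem_gaussSubring.mp (0 : gaussSubring A).2).choose_spec.choose_spec
    rw [red_unique h.1 (Z₁ := 0) (Z₂ := 1) (by rw [map_one]; exact one_ne_zero) h.2 (by simp)]
    simp
  map_mul' x y := by
    have h := (mem_gaussSubring.mp (x * y : gaussSubring A).2).choose_spec.choose_spec
    have hx := (mem_gaussSubring.mp x.2).choose_spec.choose_spec
    have hy := (mem_gaussSubring.mp y.2).choose_spec.choose_spec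
    rw [red_unique h.1 (Z₁ := (mem_gaussSubring.mp x.2).choose * (mem_gaussSubring.mp y.2).choose)
      (Z₂ := (mem_gaussSubring.mp x.2).choose_spec.choose *
        (mem_gaussSubring.mp y.2).choose_spec.choose)
      (by rw [map_mul]; exact mul_ne_zero hx.1 hy.1) h.2
      (by
        rw [map_mul, map_mul]
        refine Eq.trans ?_ (congrArg₂ (· * ·) hx.2 hy.2)
        push_cast; ring)]
    rw [map_mul, map_mul, mul_div_mul_comm]
  map_add' x y := by
    have h := (mem_gaussSubring.mp (x + y : gaussSubring A).2).choose_spec.choose_spec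
    have hx := (mem_gaussSubring.mp x.2).choose_spec.choose_spec
    have hy := (mem_gaussSubring.mp y.2).choose_spec.choose_spec
    rw [red_unique h.1 (Z₁ := (mem_gaussSubring.mp x.2).choose *
        (mem_gaussSubring.mp y.2).choose_spec.choose +
        (mem_gaussSubring.mp y.2).choose * (mem_gaussSubring.mp x.2).choose_spec.choose)
      (Z₂ := (mem_gaussSubring.mp x.2).choose_spec.choose *
        (mem_gaussSubring.mp y.2).choose_spec.choose)
      (by rw [map_mul]; exact mul_ne_zero hx.1 hy.1) h.2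
      (by
        rw [map_mul, map_add, map_mul, map_mul]
        refine Eq.trans ?_ (congrArg₂ (fun a b => a * incl A
          (mem_gaussSubring.mp y.2).choose_spec.choose + b * incl A
          (mem_gaussSubring.mp x.2).choose_spec.choose) hx.2 hy.2)
        push_cast; ring)]
    rw [map_add, map_mul, map_mul, map_mul, div_add_div _ _ hx.1 hy.1]
    congr 1
    ring

variable {A}

theorem gaussRed_eq {y : gaussSubring A} {Y₁ Y₂ : LaurentSeries A} (hY : redS A Y₂ ≠ 0)
    (hy : (y : LaurentSeries K) * incl A Y₂ = incl A Y₁) :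
    gaussRed A y = redS A Y₁ / redS A Y₂ := by
  have h := (mem_gaussSubring.mp y.2).choose_spec.choose_spec
  exact red_unique h.1 hY h.2 hy

theorem gaussRed_incl (Y : LaurentSeries A) (h : incl A Y ∈ gaussSubring A) :
    gaussRed A ⟨incl A Y, h⟩ = redS A Y := by
  rw [gaussRed_eq (Y₁ := Y) (Y₂ := 1) (by rw [map_one]; exact one_ne_zero) (by simp)]
  simp

theorem gaussRed_ne_zero_iff {y : gaussSubring A} :
    gaussRed A y ≠ 0 ↔ ∃ Y₁ Y₂ : LaurentSeries A, redS A Y₁ ≠ 0 ∧ redS A Y₂ ≠ 0 ∧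
      (y : LaurentSeries K) * incl A Y₂ = incl A Y₁ := by
  constructor
  · intro h
    obtain ⟨Y₁, Y₂, hY, hy⟩ := y.2
    refine ⟨Y₁, Y₂, ?_, hY, hy⟩
    intro h0
    rw [gaussRed_eq hY hy, h0, zero_div] at h
    exact h rfl
  · rintro ⟨Y₁, Y₂, h₁, h₂, hy⟩
    rw [gaussRed_eq h₂ hy]
    exact div_ne_zero h₁ h₂

theorem gaussRed_ne_zero_of_inv_mem {y : gaussSubring A} (hy0 : (y : LaurentSeries K) ≠ 0)
    (hinv : (y : LaurentSeries K)⁻¹ ∈ gaussSubring A) : gaussRed A y ≠ 0 := by
  intro h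
  have h1 : gaussRed A (y * ⟨_, hinv⟩) = 0 := by rw [map_mul, h, zero_mul]
  have h2 : y * ⟨_, hinv⟩ = (1 : gaussSubring A) := Subtype.ext (by
    push_cast
    exact mul_inv_cancel₀ hy0)
  rw [h2, map_one] at h1
  exact one_ne_zero h1

theorem inv_mem_of_gaussRed_ne_zero {y : gaussSubring A} (h : gaussRed A y ≠ 0) :
    (y : LaurentSeries K)⁻¹ ∈ gaussSubring A := by
  obtain ⟨Y₁, Y₂, h₁, h₂, hy⟩ := gaussRed_ne_zero_iff.mp h
  refine ⟨Y₂, Y₁, h₁, ?_⟩
  have hy0 : (y : LaurentSeries K) ≠ 0 := by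
    intro h0
    rw [h0, zero_mul] at hy
    exact incl_ne_zero h₁ hy.symm
  rw [← hy, ← mul_assoc, inv_mul_cancel₀ hy0, one_mul]

variable (A)

/-- the maximum of the valuations of the coefficients is attained. -/
def Scalable (y : LaurentSeries K) : Prop :=
  ∃ n₀, y.coeff n₀ ≠ 0 ∧ ∀ n, A.valuation (y.coeff n) ≤ A.valuation (y.coeff n₀)

variable {A}

theorem coeff_algebraMap_mul (c : K) (y : LaurentSeries K) (n : ℤ) :
    (algebraMap K (LaurentSeries K) c * y).coeff n = c * y.coeff n := by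
  rw [algebraMap_laurentSeries_eq_single, HahnSeries.coeff_single_zero_mul]

theorem Scalable.exists_primitive {y : LaurentSeries K} (hy : Scalable A y) :
    ∃ (c : K) (Y : LaurentSeries A) (n₀ : ℤ), c ≠ 0 ∧
      algebraMap K (LaurentSeries K) c * incl A Y = y ∧ redS A Y ≠ 0 ∧
      Y.coeff n₀ = 1 ∧ c = y.coeff n₀ := by
  obtain ⟨n₀, h0, hn⟩ := hy
  obtain ⟨Y, hY⟩ := exists_incl_of_coeff_mem (A := A)
      (y := algebraMap K (LaurentSeries K) (y.coeff n₀)⁻¹ * y) (by
    intro n
    rw [coeff_algebraMap_mul, ← ValuationSubring.valuation_le_one_iff, map_mul,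
      map_inv₀, ← div_eq_inv_mul]
    exact div_le_one_of_le₀ (hn n) zero_le)
  have h1 : Y.coeff n₀ = 1 := by
    apply Subtype.ext
    have := congrArg (fun z : LaurentSeries K => z.coeff n₀) hY
    simp only [coeffMap_coeff, coeff_algebraMap_mul] at this
    rw [inv_mul_cancel₀ h0] at this
    exact this
  refine ⟨y.coeff n₀, Y, n₀, h0, ?_, ?_, h1, rfl⟩
  · rw [hY, ← mul_assoc, ← map_mul, mul_inv_cancel₀ h0, map_one, one_mul]
  · intro h
    have := congrArg (fun z : LaurentSeries (IsLocalRing.ResidueField A) => z.coeff n₀) h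
    simp only [coeffMap_coeff, HahnSeries.coeff_zero, h1, map_one] at this
    exact one_ne_zero this

end Basic

section Span

variable (K : Type*) [Field K]

/-- the `K`-subalgebra spanned by series with integer coefficients -/
def intAlg : Subalgebra K (LaurentSeries K) :=
  Algebra.adjoin K (Set.range (coeffMap (Int.castRingHom K)))

variable {K}

theorem exists_sum_of_mem_intAlg {y : LaurentSeries K} (hy : y ∈ intAlg K) :
    ∃ (ι : Type) (_ : Fintype ι) (c : ι → K) (G : ι → LaurentSeries ℤ),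
      y = ∑ i, algebraMap K (LaurentSeries K) (c i) * coeffMap (Int.castRingHom K) (G i) := by
  induction hy using Algebra.adjoin_induction with
  | mem x hx =>
    obtain ⟨G, rfl⟩ := hx
    exact ⟨Unit, inferInstance, fun _ => 1, fun _ => G, by simp⟩
  | algebraMap a =>
    exact ⟨Unit, inferInstance, fun _ => a, fun _ => 1, by simp⟩
  | add x y _ _ hx hy =>
    obtain ⟨ι, _, c, G, rfl⟩ := hx
    obtain ⟨κ, _, d, H, rfl⟩ := hy
    refine ⟨ι ⊕ κ, inferInstance, Sum.elim c d, Sum.elim G H, ?_⟩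
    rw [Fintype.sum_sum_type]
    rfl
  | mul x y _ _ hx hy =>
    obtain ⟨ι, _, c, G, rfl⟩ := hx
    obtain ⟨κ, _, d, H, rfl⟩ := hy
    refine ⟨ι × κ, inferInstance, fun p => c p.1 * d p.2, fun p => G p.1 * H p.2, ?_⟩
    rw [Finset.sum_mul_sum, Fintype.sum_prod_type]
    apply Finset.sum_congr rfl
    intro i _
    apply Finset.sum_congr rfl
    intro j _
    rw [map_mul, map_mul]
    ring

variable {A : ValuationSubring K} {ℓ : ℕ}

theorem scalable_of_mem_intAlg [CharZero K] [Algebra.IsAlgebraic ℚ K]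
    (hℓ : ℓ.Prime) (hA : A.LiesOverPrime ℓ) {y : LaurentSeries K}
    (hy : y ∈ intAlg K) (hy0 : y ≠ 0) : Scalable A y := by
  classical
  obtain ⟨ι, _, c, G, hsum⟩ := exists_sum_of_mem_intAlg hy
  have hcoeff : ∀ n, y.coeff n = ∑ i, c i * ((G i).coeff n : ℤ) := by
    intro n
    rw [hsum, HahnSeries.coeff_sum]
    apply Finset.sum_congr rfl
    intro i _
    rw [coeff_algebraMap_mul]
    rfl
  -- the number field generated by the `c i`
  set L : IntermediateField ℚ K := IntermediateField.adjoin ℚ (Set.range c) with hL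
  have : FiniteDimensional ℚ L := by
    apply IntermediateField.finiteDimensional_adjoin
    intro x _
    exact (Algebra.IsAlgebraic.isAlgebraic x).isIntegral
  have hcL : ∀ i, c i ∈ L := fun i => IntermediateField.subset_adjoin _ _ ⟨i, rfl⟩
  obtain ⟨n₁, hn₁⟩ : ∃ n, y.coeff n ≠ 0 := by
    by_contra h
    push Not at h
    exact hy0 (HahnSeries.ext (funext h))
  have hr : (Finset.univ : Finset ι).Nonempty := by
    by_contra hemp
    rw [Finset.not_nonempty_iff_eq_empty] at hemp
    apply hn₁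
    rw [hcoeff, hemp, Finset.sum_empty]
  obtain ⟨i₀, _, hi₀⟩ := Finset.exists_max_image Finset.univ (fun i => A.valuation (c i)) hr
  obtain ⟨x₀, ⟨n₀, rfl⟩, hx₀, hmax⟩ := exists_max A hℓ hA L (Set.range y.coeff)
    (by
      rintro _ ⟨n, rfl⟩
      rw [hcoeff]
      exact sum_mem fun i _ => mul_mem (hcL i) (intCast_mem _ _))
    (hcL i₀)
    (by
      rintro _ ⟨n, rfl⟩
      rw [hcoeff]
      apply Valuation.map_sum_le
      intro i _
      rw [map_mul]
      calc A.valuation (c i) * A.valuation (((G i).coeff n : ℤ) : K)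
          ≤ A.valuation (c i₀) * 1 := mul_le_mul' (hi₀ i (Finset.mem_univ i))
            (val_intCast_le_one A _)
        _ = A.valuation (c i₀) := mul_one _)
    ⟨_, ⟨n₁, rfl⟩, hn₁⟩
  exact ⟨n₀, hx₀, fun n => hmax _ ⟨n, rfl⟩⟩

/-- quotients of `intAlg` -/
theorem exists_div_of_mem_adjoin {S : Set (LaurentSeries K)} {y : LaurentSeries K}
    (hy : y ∈ IntermediateField.adjoin K S) :
    ∃ a ∈ Algebra.adjoin K S, ∃ b ∈ Algebra.adjoin K S, b ≠ 0 ∧ y * b = a := by
  rw [IntermediateField.mem_adjoin_iff_div] at hy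
  obtain ⟨r, hr, s, hs, rfl⟩ := hy
  rcases eq_or_ne s 0 with rfl | hs0
  · exact ⟨0, zero_mem _, 1, one_mem _, one_ne_zero, by simp⟩
  · exact ⟨r, hr, s, hs, hs0, div_mul_cancel₀ _ hs0⟩

end Span

end Fermat.Agent.GaussVal
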