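import Mathlib
import Fermat.Agent.GaussVal.Basic

set_option autoImplicit false

noncomputable section

/-! Pivot families: abstract orthonormal bases. -/

namespace Fermat.Agent.GaussVal

open Module

section Pivot

variable {K : Type*} [Field K] (A : ValuationSubring K) {V : Type*} [AddCommGroup V] [Module K V]
  {I : Type*} (co : I → V →ₗ[K] K)

/-- a family which is integral and in reduced echelon form. -/
def PivotFamily (n : ℕ) (b : Fin n → V) (p : Fin n → I) : Prop :=
  (∀ i m, co m (b i) ∈ A) ∧ (∀ i j, co (p j) (b i) = if i = j then 1 else 0)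

variable {A co}

theorem PivotFamily.linearIndependent {n : ℕ} {b : Fin n → V} {p : Fin n → I}
    (h : PivotFamily A co n b p) : LinearIndependent K b := by
  rw [Fintype.linearIndependent_iff]
  intro g hg j
  have h1 := congrArg (co (p j)) hg
  rw [map_sum, map_zero] at h1
  simp only [map_smul, h.2, smul_eq_mul] at h1
  simpa using h1

theorem exists_pivotFamily [FiniteDimensional K V]
    (hsc : ∀ v : V, v ≠ 0 → ∃ n₀, co n₀ v ≠ 0 ∧ ∀ n, A.valuation (co n v) ≤ A.valuation (co n₀ v))
    (n : ℕ) (hn : n ≤ finrank K V) :
    ∃ (b : Fin n → V) (p : Fin n → I), PivotFamily A co n b p := by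
  classical
  induction n with
  | zero => exact ⟨Fin.elim0, Fin.elim0, fun i => i.elim0, fun i => i.elim0⟩
  | succ n ih =>
    obtain ⟨b, p, hbp⟩ := ih (by omega)
    -- an element outside the span
    obtain ⟨v, hv⟩ : ∃ v : V, v ∉ Submodule.span K (Set.range b) := by
      by_contra hcon
      push Not at hcon
      have htop : Submodule.span K (Set.range b) = ⊤ := by
        rw [eq_top_iff]
        intro v _
        exact hcon v
      have h1 : finrank K (Submodule.span K (Set.range b)) ≤ n := by
        have := finrank_range_le_card (R := K) b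
        rwa [Fintype.card_fin] at this
      rw [htop, finrank_top] at h1
      omega
    set w : V := v - ∑ j, co (p j) v • b j with hw
    have hw0 : w ≠ 0 := by
      intro h
      apply hv
      rw [hw, sub_eq_zero] at h
      rw [h]
      exact Submodule.sum_mem _ fun j _ => Submodule.smul_mem _ _ (Submodule.subset_span ⟨j, rfl⟩)
    have hwp : ∀ j, co (p j) w = 0 := by
      intro j
      rw [hw, map_sub, map_sum]
      simp only [map_smul, hbp.2, smul_eq_mul]
      simp
    obtain ⟨n₀, hn₀, hmax⟩ := hsc w hw0
    set u : V := (co n₀ w)⁻¹ • w with hu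
    have hup : ∀ j, co (p j) u = 0 := by
      intro j
      rw [hu, map_smul, hwp, smul_zero]
    have hu1 : co n₀ u = 1 := by
      rw [hu, map_smul, smul_eq_mul, inv_mul_cancel₀ hn₀]
    have huA : ∀ m, co m u ∈ A := by
      intro m
      rw [hu, map_smul, smul_eq_mul, ← ValuationSubring.valuation_le_one_iff, map_mul, map_inv₀,
        ← div_eq_inv_mul]
      exact div_le_one_of_le₀ (hmax m) zero_le
    refine ⟨Fin.snoc (α := fun _ => V) (fun j => b j - co n₀ (b j) • u) u,
      Fin.snoc (α := fun _ => I) p n₀, ?_, ?_⟩
    · intro i m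
      refine Fin.lastCases ?_ (fun i => ?_) i
      · rw [Fin.snoc_last]; exact huA m
      · rw [Fin.snoc_castSucc, map_sub, map_smul, smul_eq_mul]
        exact sub_mem (hbp.1 i m) (mul_mem (hbp.1 i n₀) (huA m))
    · intro i j
      refine Fin.lastCases ?_ (fun i => ?_) i
      · rw [Fin.snoc_last]
        refine Fin.lastCases ?_ (fun j => ?_) j
        · rw [Fin.snoc_last, hu1, if_pos rfl]
        · rw [Fin.snoc_castSucc, hup, if_neg]
          exact (Fin.castSucc_lt_last j).ne'
      · rw [Fin.snoc_castSucc]
        refine Fin.lastCases ?_ (fun j => ?_) j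
        · rw [Fin.snoc_last, map_sub, map_smul, hu1, smul_eq_mul, mul_one, sub_self, if_neg]
          exact (Fin.castSucc_lt_last i).ne
        · rw [Fin.snoc_castSucc, map_sub, map_smul, hup, smul_zero, sub_zero, hbp.2]
          simp only [Fin.castSucc_inj]

end Pivot

end Fermat.Agent.GaussVal
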