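import Mathlib
import Fermat.Agent.GaussVal.Ortho

set_option autoImplicit false

noncomputable section

/-! The Gauss valuation ring of a function field `F ⊂ K((q))` generated by series with integer
coefficients. -/

open ModularCurve HahnSeries Module

namespace Fermat.Agent.GaussVal

section FieldDef

variable (K : Type*) [Field K]

/-- The field generated by all series with integer coefficients. -/
def intField : IntermediateField K (LaurentSeries K) :=
  IntermediateField.adjoin K (Set.range (coeffMap (Int.castRingHom K)))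

variable {K}

theorem exists_div_of_mem_intField {y : LaurentSeries K} (hy : y ∈ intField K) :
    ∃ a ∈ intAlg K, ∃ b ∈ intAlg K, b ≠ 0 ∧ y * b = a :=
  exists_div_of_mem_adjoin hy

theorem coeffMap_int_mem_intField (Y : LaurentSeries ℤ) :
    coeffMap (Int.castRingHom K) Y ∈ intField K :=
  IntermediateField.subset_adjoin _ _ ⟨Y, rfl⟩

theorem jqd_mem_intField (d : ℕ) [NeZero d] : qExpand K d (jqModC K) ∈ intField K := by
  have h : qExpand K d (jqModC K) = coeffMap (Int.castRingHom K) (qExpand ℤ d (jqModC ℤ)) := by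
    rw [coeffMap_qExpand, coeffMap_jqModC]
  rw [h]
  exact coeffMap_int_mem_intField _

theorem fullC_le_intField (N : ℕ) : modularFunctionFieldFullC K N ≤ intField K := by
  rw [modularFunctionFieldFullC, IntermediateField.adjoin_le_iff]
  rintro x ⟨d, hne, _, rfl⟩
  exact jqd_mem_intField d

end FieldDef

section Val

variable {K : Type*} [Field K] {A : ValuationSubring K} {ℓ : ℕ}

theorem algebraMap_mem_gaussSubring {c : K} (hc : c ∈ A) :
    algebraMap K (LaurentSeries K) c ∈ gaussSubring A := by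
  have h : algebraMap K (LaurentSeries K) c = incl A (HahnSeries.single 0 ⟨c, hc⟩) := by
    rw [algebraMap_laurentSeries_eq_single, coeffMap_single]
    rfl
  rw [h]
  exact incl_mem _

theorem gaussRed_algebraMap {c : K} (hc : c ∈ A) :
    gaussRed A ⟨algebraMap K (LaurentSeries K) c, algebraMap_mem_gaussSubring hc⟩ =
      algebraMap (IsLocalRing.ResidueField A) (LaurentSeries (IsLocalRing.ResidueField A))
        (IsLocalRing.residue A ⟨c, hc⟩) := by
  have h : algebraMap K (LaurentSeries K) c * incl A 1 =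
      incl A (HahnSeries.single 0 ⟨c, hc⟩) := by
    rw [map_one, mul_one, coeffMap_single, algebraMap_laurentSeries_eq_single]
    rfl
  have h1 : redS A (1 : LaurentSeries A) ≠ 0 := by rw [map_one]; exact one_ne_zero
  have h2 := gaussRed_eq (y := ⟨algebraMap K (LaurentSeries K) c, algebraMap_mem_gaussSubring hc⟩)
    h1 h
  rw [map_one, div_one] at h2
  refine h2.trans ?_
  rw [algebraMap_laurentSeries_eq_single]
  exact coeffMap_single _ _ _

theorem algebraMap_mem_gaussSubring_iff {c : K} :
    algebraMap K (LaurentSeries K) c ∈ gaussSubring A ↔ c ∈ A := by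
  refine ⟨fun h => ?_, algebraMap_mem_gaussSubring⟩
  by_contra hc
  have hc0 : c ≠ 0 := fun h0 => hc (h0 ▸ A.zero_mem)
  have hinv : c⁻¹ ∈ A := (A.mem_or_inv_mem c).resolve_left hc
  have h1 : gaussRed A (⟨_, h⟩ * ⟨_, algebraMap_mem_gaussSubring hinv⟩) = 1 := by
    have : (⟨_, h⟩ * ⟨_, algebraMap_mem_gaussSubring hinv⟩ : gaussSubring A) = 1 :=
      Subtype.ext (by
        change algebraMap K (LaurentSeries K) c * algebraMap K (LaurentSeries K) c⁻¹ = 1
        rw [← map_mul, mul_inv_cancel₀ hc0, map_one])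
    rw [this, map_one]
  rw [map_mul, gaussRed_algebraMap hinv] at h1
  have h2 : IsLocalRing.residue A ⟨c⁻¹, hinv⟩ = 0 := by
    rw [IsLocalRing.residue_eq_zero_iff]
    apply (A.valuation_lt_one_iff _).mpr
    change A.valuation c⁻¹ < 1
    rw [map_inv₀]
    apply inv_lt_one_of_one_lt₀
    rw [← not_le, ValuationSubring.valuation_le_one_iff]
    exact hc
  rw [h2, map_zero, mul_zero] at h1
  exact zero_ne_one h1

theorem mem_nonunits_iff_inv_notMem {F : Type*} [Field F] (B : ValuationSubring F) {x : F}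
    (hx : x ≠ 0) : x ∉ B.nonunits ↔ x⁻¹ ∈ B := by
  rw [ValuationSubring.mem_nonunits_iff, not_lt, ← ValuationSubring.valuation_le_one_iff,
      map_inv₀]
  exact (inv_le_one₀ (zero_lt_iff.mpr ((Valuation.ne_zero_iff _).mpr hx))).symm

variable [CharZero K] [Algebra.IsAlgebraic ℚ K]

theorem mem_or_inv_mem (hℓ : ℓ.Prime) (hA : A.LiesOverPrime ℓ) {y : LaurentSeries K}
    (hy : y ∈ intField K) : y ∈ gaussSubring A ∨ y⁻¹ ∈ gaussSubring A := by
  rcases eq_or_ne y 0 with rfl | hy0
  · exact Or.inl (zero_mem _)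
  obtain ⟨a, ha, b, hb, hb0, hab⟩ := exists_div_of_mem_intField hy
  have ha0 : a ≠ 0 := by
    rw [← hab]; exact mul_ne_zero hy0 hb0
  obtain ⟨c, Y, _, hc0, hcY, hY, _⟩ := (scalable_of_mem_intAlg hℓ hA ha ha0).exists_primitive
  obtain ⟨d, Z, _, hd0, hdZ, hZ, _⟩ := (scalable_of_mem_intAlg hℓ hA hb hb0).exists_primitive
  have hyeq : y = algebraMap K (LaurentSeries K) (c / d) * (incl A Y * (incl A Z)⁻¹) := by
    have hd0' : algebraMap K (LaurentSeries K) d ≠ 0 :=
      (map_ne_zero_iff _ (algebraMap K (LaurentSeries K)).injective).mpr hd0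
    have h1 : y = a / b := by rw [← hab, mul_div_cancel_right₀ _ hb0]
    rw [h1, ← hcY, ← hdZ, map_div₀]
    field_simp
  have hmem : ∀ (Y Z : LaurentSeries A), redS A Z ≠ 0 →
      incl A Y * (incl A Z)⁻¹ ∈ gaussSubring A := fun Y Z hZ =>
    mul_mem (incl_mem _) (inv_mem_of_primitive hZ)
  rcases A.mem_or_inv_mem (c / d) with h | h
  · left
    rw [hyeq]
    exact mul_mem (algebraMap_mem_gaussSubring h) (hmem Y Z hZ)
  · right
    rw [hyeq, mul_inv, mul_inv, inv_inv, mul_comm (incl A Y)⁻¹, ← map_inv₀]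
    exact mul_mem (algebraMap_mem_gaussSubring h) (hmem Z Y hY)

section AbstractField

variable {F : Type*} [Field F] [Algebra K F]

/-- The Gauss valuation ring of a field `F` embedded in `intField K`. -/
def gaussVal (hℓ : ℓ.Prime) (hA : A.LiesOverPrime ℓ) (ι : F →ₐ[K] LaurentSeries K)
    (hF : ∀ x, ι x ∈ intField K) : ValuationSubring F where
  toSubring := (gaussSubring A).comap (ι : F →+* LaurentSeries K)
  mem_or_inv_mem' x := by
    rcases mem_or_inv_mem hℓ hA (hF x) with h | h
    · exact Or.inl h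
    · refine Or.inr ?_
      change ι x⁻¹ ∈ gaussSubring A
      rw [map_inv₀]
      exact h

theorem mem_gaussVal {hℓ : ℓ.Prime} {hA : A.LiesOverPrime ℓ} {ι : F →ₐ[K] LaurentSeries K}
    {hF : ∀ x, ι x ∈ intField K} {x : F} :
    x ∈ gaussVal hℓ hA ι hF ↔ ι x ∈ gaussSubring A := Iff.rfl

/-- The reduction map on the Gauss valuation ring of `F`. -/
def gaussRho (hℓ : ℓ.Prime) (hA : A.LiesOverPrime ℓ) (ι : F →ₐ[K] LaurentSeries K)
    (hF : ∀ x, ι x ∈ intField K) :
    gaussVal hℓ hA ι hF →+* LaurentSeries (IsLocalRing.ResidueField A) :=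
  (gaussRed A).comp
    { toFun := fun x => ⟨ι x, x.2⟩
      map_one' := Subtype.ext (map_one ι)
      map_mul' := fun _ _ => Subtype.ext (map_mul ι _ _)
      map_zero' := Subtype.ext (map_zero ι)
      map_add' := fun _ _ => Subtype.ext (map_add ι _ _) }

theorem gaussRho_apply {hℓ : ℓ.Prime} {hA : A.LiesOverPrime ℓ} {ι : F →ₐ[K] LaurentSeries K}
    {hF : ∀ x, ι x ∈ intField K} (x : gaussVal hℓ hA ι hF) :
    gaussRho hℓ hA ι hF x = gaussRed A ⟨ι x, x.2⟩ := rfl

theorem gaussRho_eq_zero_iff {hℓ : ℓ.Prime} {hA : A.LiesOverPrime ℓ}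
    {ι : F →ₐ[K] LaurentSeries K} {hF : ∀ x, ι x ∈ intField K} (x : gaussVal hℓ hA ι hF) :
    gaussRho hℓ hA ι hF x = 0 ↔ (x : F) ∈ (gaussVal hℓ hA ι hF).nonunits := by
  rcases eq_or_ne (x : F) 0 with h0 | h0
  · have hx : x = 0 := Subtype.ext h0
    rw [hx, map_zero]
    simp [ValuationSubring.mem_nonunits_iff]
  have h0' : ι (x : F) ≠ 0 := (map_ne_zero_iff _ ι.injective).mpr h0
  have key := mem_nonunits_iff_inv_notMem (gaussVal hℓ hA ι hF) h0
  refine not_iff_not.mp (Iff.trans ?_ key.symm)
  rw [gaussRho_apply]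
  constructor
  · intro h
    have := inv_mem_of_gaussRed_ne_zero h
    change ι (x : F)⁻¹ ∈ gaussSubring A
    rw [map_inv₀]
    exact this
  · intro h
    change ι (x : F)⁻¹ ∈ gaussSubring A at h
    rw [map_inv₀] at h
    exact gaussRed_ne_zero_of_inv_mem h0' h

omit [CharZero K] [Algebra.IsAlgebraic ℚ K] in
/-- common denominators -/
theorem exists_common_denominator {ι : F →ₐ[K] LaurentSeries K}
    (hF : ∀ x, ι x ∈ intField K) (s : Finset F) :
    ∃ b ∈ intAlg K, b ≠ 0 ∧ ∀ v ∈ s, ι v * b ∈ intAlg K := by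
  classical
  induction s using Finset.induction with
  | empty => exact ⟨1, one_mem _, one_ne_zero, by simp⟩
  | insert v s _ ih =>
    obtain ⟨b, hb, hb0, h⟩ := ih
    obtain ⟨a', ha', b', hb', hb0', hab'⟩ := exists_div_of_mem_intField (hF v)
    refine ⟨b * b', mul_mem hb hb', mul_ne_zero hb0 hb0', fun w hw => ?_⟩
    rcases Finset.mem_insert.mp hw with rfl | hw
    · rw [mul_comm b, ← mul_assoc, hab']
      exact mul_mem ha' hb
    · rw [← mul_assoc]
      exact mul_mem (h w hw) hb'

/-- Orthonormal bases of finite dimensional subspaces. -/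
theorem ortho (hℓ : ℓ.Prime) (hA : A.LiesOverPrime ℓ) {ι : F →ₐ[K] LaurentSeries K}
    (hF : ∀ x, ι x ∈ intField K) (V : Submodule K F) [FiniteDimensional K V] :
    ∃ (b : Basis (Fin (finrank K V)) K V) (hb : ∀ i, ((b i : V) : F) ∈ gaussVal hℓ hA ι hF),
      ∀ g : Fin (finrank K V) → IsLocalRing.ResidueField A,
        ∑ i, algebraMap (IsLocalRing.ResidueField A)
          (LaurentSeries (IsLocalRing.ResidueField A)) (g i) *
          gaussRho hℓ hA ι hF ⟨((b i : V) : F), hb i⟩ = 0 → ∀ i, g i = 0 := by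
  classical
  obtain ⟨s, hs⟩ : ∃ s : Finset V, Submodule.span K (s : Set V) = ⊤ :=
    (Module.finite_def.mp (inferInstanceAs (Module.Finite K V)))
  obtain ⟨b, hb, hb0, hsb⟩ := exists_common_denominator hF (s.image (fun v : V => (v : F)))
  obtain ⟨c, Z, _, hc0, hcZ, hZ, _⟩ := (scalable_of_mem_intAlg hℓ hA hb hb0).exists_primitive
  have hsmul : ∀ (a : K) (v : V), ι ((a • v : V) : F) * incl A Z =
      algebraMap K (LaurentSeries K) a * (ι (v : F) * incl A Z) := by
    intro a v
    rw [← mul_assoc]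
    congr 1
    rw [Submodule.coe_smul, Algebra.smul_def, map_mul, AlgHom.commutes]
  have hadd : ∀ (v w : V), ι ((v + w : V) : F) * incl A Z =
      ι (v : F) * incl A Z + ι (w : F) * incl A Z := by
    intro v w
    rw [Submodule.coe_add, map_add, add_mul]
  have hVb : ∀ v : V, ι (v : F) * incl A Z ∈ intAlg K := by
    intro v
    have hv : v ∈ Submodule.span K (s : Set V) := hs ▸ Submodule.mem_top
    have hcZ' : incl A Z = algebraMap K (LaurentSeries K) c⁻¹ * b := by
      rw [← hcZ, ← mul_assoc, ← map_mul, inv_mul_cancel₀ hc0, map_one, one_mul]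
    induction hv using Submodule.span_induction with
    | mem v hv =>
      have h1 := hsb (v : F) (Finset.mem_image_of_mem _ hv)
      rw [hcZ', mul_left_comm]
      exact mul_mem (Subalgebra.algebraMap_mem _ _) h1
    | zero => simp
    | add v w _ _ hv hw =>
      rw [hadd]
      exact add_mem hv hw
    | smul a v _ hv =>
      rw [hsmul]
      exact mul_mem (Subalgebra.algebraMap_mem _ _) hv
  -- coefficient functionals
  let co : ℤ → V →ₗ[K] K := fun n =>
    { toFun := fun v => (ι (v : F) * incl A Z).coeff n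
      map_add' := fun v w => by rw [hadd, HahnSeries.coeff_add]
      map_smul' := fun a v => by
        rw [hsmul, coeff_algebraMap_mul, RingHom.id_apply, smul_eq_mul] }
  have hco : ∀ n v, co n v = (ι (v : F) * incl A Z).coeff n := fun _ _ => rfl
  obtain ⟨e, p, hep⟩ := exists_pivotFamily (A := A) (co := co) (by
    intro v hv
    have hv0 : ι (v : F) ≠ 0 := by
      intro h
      exact hv (Subtype.ext ((map_eq_zero_iff _ ι.injective).mp h))
    exact scalable_of_mem_intAlg hℓ hA (hVb v) (mul_ne_zero hv0 (incl_ne_zero hZ)))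
    (finrank K V) le_rfl
  have hcard : Fintype.card (Fin (finrank K V)) = finrank K V := Fintype.card_fin _
  let B : Basis (Fin (finrank K V)) K V :=
    basisOfLinearIndependentOfCardEqFinrank' e hep.linearIndependent hcard
  have hB : ∀ i, B i = e i := fun i => by
    simp [B]
  choose Y hY using fun i => exists_incl_of_coeff_mem (A := A)
    (y := ι ((e i : V) : F) * incl A Z) (fun n => hep.1 i n)
  have hmem : ∀ i, ((B i : V) : F) ∈ gaussVal hℓ hA ι hF := by
    intro i
    rw [hB, mem_gaussVal]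
    exact ⟨Y i, Z, hZ, (hY i).symm⟩
  refine ⟨B, hmem, ?_⟩
  have hred : ∀ i, gaussRho hℓ hA ι hF ⟨((B i : V) : F), hmem i⟩ = redS A (Y i) / redS A Z := by
    intro i
    rw [gaussRho_apply]
    apply gaussRed_eq hZ
    change ι ((B i : V) : F) * incl A Z = incl A (Y i)
    rw [hB, hY]
  intro g hg j
  simp only [hred] at hg
  have h1 : ∑ i, algebraMap (IsLocalRing.ResidueField A)
      (LaurentSeries (IsLocalRing.ResidueField A)) (g i) * redS A (Y i) = 0 := by
    have h2 := congrArg (fun z => z * redS A Z) hg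
    simp only [zero_mul, Finset.sum_mul] at h2
    rw [← h2]
    apply Finset.sum_congr rfl
    intro i _
    rw [mul_assoc, div_mul_cancel₀ _ hZ]
  have h3 := congrArg (fun z : LaurentSeries (IsLocalRing.ResidueField A) => z.coeff (p j)) h1
  simp only [HahnSeries.coeff_sum, coeff_algebraMap_mul, HahnSeries.coeff_zero] at h3
  have h4 : ∀ i, (redS A (Y i)).coeff (p j) = if i = j then 1 else 0 := by
    intro i
    have h5 : (Y i).coeff (p j) = if i = j then 1 else 0 := by
      apply Subtype.ext
      have h6 : ((Y i).coeff (p j) : K) = (incl A (Y i)).coeff (p j) := rfl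
      rw [h6, hY, ← hco, hep.2]
      split_ifs <;> rfl
    rw [coeffMap_coeff, h5]
    split_ifs
    · rw [map_one]
    · rw [map_zero]
  simp only [h4] at h3
  simpa using h3

end AbstractField

end Val

end Fermat.Agent.GaussVal
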