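import Mathlib
import Fermat.Agent.GaussVal.Field

set_option autoImplicit false

noncomputable section

/-! The range of the reduction map : comparison with a function field `F' ⊂ k((q))` of the same
degree over `k(j)`. -/

open ModularCurve HahnSeries Module Polynomial
open scoped IntermediateField

namespace Fermat.Agent.GaussVal

section PolyRel

variable {K F : Type*} [Field K] [Field F] [Algebra K F]

/-- elements of `K(y)` are quotients of polynomials in `y`. -/
theorem exists_poly_div (y : F) (z : F) (hz : z ∈ K⟮y⟯) :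
    ∃ P Q : K[X], aeval y Q ≠ 0 ∧ z * aeval y Q = aeval y P := by
  rw [IntermediateField.mem_adjoin_simple_iff] at hz
  obtain ⟨P, Q, rfl⟩ := hz
  by_cases h : aeval y Q = 0
  · exact ⟨0, 1, by simp, by simp [h]⟩
  · exact ⟨P, Q, h, div_mul_cancel₀ _ h⟩

theorem exists_poly_common {ι : Type*} (y : F) (s : Finset ι) (z : ι → F)
    (hz : ∀ i, z i ∈ K⟮y⟯) :
    ∃ Q : K[X], aeval y Q ≠ 0 ∧ ∀ i ∈ s, ∃ P : K[X], z i * aeval y Q = aeval y P := by
  classical
  induction s using Finset.induction with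
  | empty => exact ⟨1, by simp, by simp⟩
  | insert j s _ ih =>
    obtain ⟨Q, hQ, h⟩ := ih
    obtain ⟨P', Q', hQ', hP'⟩ := exists_poly_div y (z j) (hz j)
    refine ⟨Q * Q', by rw [map_mul]; exact mul_ne_zero hQ hQ', fun i hi => ?_⟩
    rcases Finset.mem_insert.mp hi with rfl | hi
    · exact ⟨P' * Q, by rw [map_mul, map_mul, ← hP']; ring⟩
    · obtain ⟨P, hP⟩ := h i hi
      exact ⟨P * Q', by rw [map_mul, map_mul, ← hP]; ring⟩

/-- More elements than the degree satisfy a polynomial relation. -/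
theorem exists_poly_relation (y : F) [FiniteDimensional K⟮y⟯ F] {n : ℕ}
    (hn : finrank K⟮y⟯ F < n) (x : Fin n → F) :
    ∃ P : Fin n → K[X], (∃ i, aeval y (P i) ≠ 0) ∧ ∑ i, aeval y (P i) * x i = 0 := by
  have hdep : ¬ LinearIndependent K⟮y⟯ x := by
    intro h
    have := h.fintype_card_le_finrank
    rw [Fintype.card_fin] at this
    omega
  rw [Fintype.not_linearIndependent_iff] at hdep
  obtain ⟨g, hg, i₀, hi₀⟩ := hdep
  obtain ⟨Q, hQ, h⟩ := exists_poly_common y Finset.univ (fun i => (g i : F)) (fun i => (g i).2)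
  choose P hP using fun i => h i (Finset.mem_univ i)
  refine ⟨P, ⟨i₀, ?_⟩, ?_⟩
  · rw [← hP]
    refine mul_ne_zero ?_ hQ
    intro h0
    exact hi₀ (Subtype.ext h0)
  · have : ∑ i, aeval y (P i) * x i = aeval y Q * ∑ i, g i • x i := by
      rw [Finset.mul_sum]
      apply Finset.sum_congr rfl
      intro i _
      rw [← hP, IntermediateField.smul_def, smul_eq_mul]
      ring
    rw [this, hg, mul_zero]

end PolyRel

section Scale

variable {K : Type*} [Field K] (A : ValuationSubring K)

/-- Simultaneous scaling of finitely many polynomials. -/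
theorem exists_scale_poly {n : ℕ} (P : Fin n → K[X]) (hP : ∃ i, P i ≠ 0) :
    ∃ (c : K) (Q : Fin n → A[X]), c ≠ 0 ∧ (∀ i, P i = C c * (Q i).map A.subtype) ∧
      ∃ i, (Q i).map (IsLocalRing.residue A) ≠ 0 := by
  classical
  set T : Finset (Σ _ : Fin n, ℕ) := Finset.univ.sigma (fun i => (P i).support) with hT
  have hTne : T.Nonempty := by
    obtain ⟨i, hi⟩ := hP
    obtain ⟨m, hm⟩ := Polynomial.support_nonempty.mpr hi
    exact ⟨⟨i, m⟩, by rw [hT, Finset.mem_sigma]; exact ⟨Finset.mem_univ _, hm⟩⟩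
  obtain ⟨⟨i₀, m₀⟩, hmem, hmax⟩ := Finset.exists_max_image T
    (fun p => A.valuation ((P p.1).coeff p.2)) hTne
  rw [hT, Finset.mem_sigma] at hmem
  set c := (P i₀).coeff m₀ with hc
  have hc0 : c ≠ 0 := Polynomial.mem_support_iff.mp hmem.2
  have hle : ∀ i m, A.valuation ((P i).coeff m) ≤ A.valuation c := by
    intro i m
    by_cases h : (P i).coeff m = 0
    · rw [h, map_zero]; exact zero_le
    · exact hmax ⟨i, m⟩ (by
        rw [hT, Finset.mem_sigma]
        exact ⟨Finset.mem_univ _, Polynomial.mem_support_iff.mpr h⟩)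
  have hA : ∀ i m, c⁻¹ * (P i).coeff m ∈ A := by
    intro i m
    rw [← ValuationSubring.valuation_le_one_iff, map_mul, map_inv₀, ← div_eq_inv_mul]
    exact div_le_one_of_le₀ (hle i m) zero_le
  have hlift : ∀ i, ∃ Q : A[X], Q.map A.subtype = C c⁻¹ * P i := by
    intro i
    have h : C c⁻¹ * P i ∈ Polynomial.lifts A.subtype := by
      rw [Polynomial.lifts_iff_coeff_lifts]
      intro m
      rw [Polynomial.coeff_C_mul]
      exact ⟨⟨_, hA i m⟩, rfl⟩
    exact (Polynomial.mem_lifts _).mp h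
  choose Q hQ using hlift
  refine ⟨c, Q, hc0, ?_, i₀, ?_⟩
  · intro i
    rw [hQ, ← mul_assoc, ← C_mul, mul_inv_cancel₀ hc0, C_1, one_mul]
  · intro h
    have h1 := congrArg (fun R => R.coeff m₀) h
    simp only [Polynomial.coeff_map, Polynomial.coeff_zero] at h1
    have h2 : (Q i₀).coeff m₀ = 1 := by
      apply Subtype.ext
      have h3 := congrArg (fun R => R.coeff m₀) (hQ i₀)
      simp only [Polynomial.coeff_map, Polynomial.coeff_C_mul] at h3
      rw [← hc, inv_mul_cancel₀ hc0] at h3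
      exact h3
    rw [h2, map_one] at h1
    exact one_ne_zero h1

end Scale

section Range

variable {K : Type*} [Field K] {A : ValuationSubring K} {ℓ : ℕ}
variable [CharZero K] [Algebra.IsAlgebraic ℚ K]
variable {F : Type*} [Field F] [Algebra K F]

theorem gaussRho_inv {hℓ : ℓ.Prime} {hA : A.LiesOverPrime ℓ}
    {ι : F →ₐ[K] LaurentSeries K} {hF : ∀ x, ι x ∈ intField K} {x : gaussVal hℓ hA ι hF}
    (hx : gaussRho hℓ hA ι hF x ≠ 0) :
    ∃ h : (x : F)⁻¹ ∈ gaussVal hℓ hA ι hF,
      gaussRho hℓ hA ι hF ⟨(x : F)⁻¹, h⟩ = (gaussRho hℓ hA ι hF x)⁻¹ := by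
  have hx0 : (x : F) ≠ 0 := by
    intro h
    apply hx
    have : x = 0 := Subtype.ext h
    rw [this, map_zero]
  have h : (x : F)⁻¹ ∈ gaussVal hℓ hA ι hF := by
    rw [← mem_nonunits_iff_inv_notMem _ hx0]
    intro h
    exact hx ((gaussRho_eq_zero_iff x).mpr h)
  refine ⟨h, ?_⟩
  apply eq_inv_of_mul_eq_one_left
  rw [← map_mul]
  have : (⟨(x : F)⁻¹, h⟩ : gaussVal hℓ hA ι hF) * x = 1 := Subtype.ext (inv_mul_cancel₀ hx0)
  rw [this, map_one]

/-- reduction of a polynomial expression -/
theorem gaussRho_aeval {hℓ : ℓ.Prime} {hA : A.LiesOverPrime ℓ}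
    {ι : F →ₐ[K] LaurentSeries K} {hF : ∀ x, ι x ∈ intField K} (x : gaussVal hℓ hA ι hF)
    (P : A[X]) :
    ∃ h : aeval (x : F) (P.map A.subtype) ∈ gaussVal hℓ hA ι hF,
      gaussRho hℓ hA ι hF ⟨_, h⟩ =
        aeval (gaussRho hℓ hA ι hF x) (P.map (IsLocalRing.residue A)) := by
  have hc : ∀ a : A, algebraMap K F a ∈ gaussVal hℓ hA ι hF := by
    intro a
    rw [mem_gaussVal, AlgHom.commutes]
    exact algebraMap_mem_gaussSubring a.2
  have hcρ : ∀ a : A, gaussRho hℓ hA ι hF ⟨algebraMap K F a, hc a⟩ =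
      algebraMap (IsLocalRing.ResidueField A) _ (IsLocalRing.residue A a) := by
    intro a
    rw [gaussRho_apply, ← gaussRed_algebraMap a.2]
    congr 1
    exact Subtype.ext (AlgHom.commutes ι _)
  induction P using Polynomial.induction_on' with
  | add p q hp hq =>
    obtain ⟨h₁, h₁'⟩ := hp
    obtain ⟨h₂, h₂'⟩ := hq
    have h : aeval (x : F) ((p + q).map A.subtype) =
      aeval (x : F) (p.map A.subtype) + aeval (x : F) (q.map A.subtype) := by
      rw [Polynomial.map_add, map_add]
    refine ⟨h ▸ add_mem h₁ h₂, ?_⟩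
    refine Eq.trans ?_ (Eq.symm (by rw [Polynomial.map_add, map_add, ← h₁', ← h₂', ← map_add]))
    exact congrArg _ (Subtype.ext h)
  | monomial n a =>
    have h : aeval (x : F) ((Polynomial.monomial n a).map A.subtype) =
      algebraMap K F a * (x : F) ^ n := by
      rw [Polynomial.map_monomial, Polynomial.aeval_monomial]
      rfl
    refine ⟨h ▸ mul_mem (hc a) (pow_mem x.2 n), ?_⟩
    refine Eq.trans ?_ (Eq.symm (by
      rw [Polynomial.map_monomial, Polynomial.aeval_monomial, ← hcρ, ← map_pow, ← map_mul]))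
    exact congrArg _ (Subtype.ext h)

/-- The main comparison: if `F'` (inside `k((q))`) has degree at least that of `F`, then the
reduction map takes values in `F'`. -/
theorem gaussRho_mem {hℓ : ℓ.Prime} {hA : A.LiesOverPrime ℓ}
    {ι : F →ₐ[K] LaurentSeries K} {hF : ∀ x, ι x ∈ intField K}
    {F' : Type*} [Field F'] [Algebra (IsLocalRing.ResidueField A) F']
    (ι' : F' →ₐ[IsLocalRing.ResidueField A] LaurentSeries (IsLocalRing.ResidueField A))
    (y : F) [FiniteDimensional K⟮y⟯ F] (hy : y ∈ gaussVal hℓ hA ι hF) (y' : F')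
    (hyy' : gaussRho hℓ hA ι hF ⟨y, hy⟩ = ι' y')
    (htr : Transcendental (IsLocalRing.ResidueField A) y')
    (hdeg : finrank K⟮y⟯ F ≤ finrank (IsLocalRing.ResidueField A)⟮y'⟯ F')
    (hF' : ∀ z : F', ∃ x : gaussVal hℓ hA ι hF, gaussRho hℓ hA ι hF x = ι' z)
    (x : gaussVal hℓ hA ι hF) : ∃ z : F', ι' z = gaussRho hℓ hA ι hF x := by
  classical
  set k := IsLocalRing.ResidueField A with hk
  set n := finrank K⟮y⟯ F with hn
  have hnpos : 0 < n := finrank_pos
  -- `n` independent elements of `F'`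
  obtain ⟨e, he⟩ : ∃ e : Fin n → F', LinearIndependent k⟮y'⟯ e := by
    have h1 : n ≤ Module.rank k⟮y'⟯ F' := by
      have : FiniteDimensional k⟮y'⟯ F' := FiniteDimensional.of_finrank_pos
        (lt_of_lt_of_le hnpos hdeg)
      rw [← Module.finrank_eq_rank']
      exact Nat.cast_le.mpr hdeg
    obtain ⟨e, he⟩ := exists_linearIndependent_of_le_rank h1
    exact ⟨e, he⟩
  choose u hu using fun i => hF' (e i)
  -- relation among the lifts and `x`
  obtain ⟨P, ⟨i₁, hi₁⟩, hrel⟩ := exists_poly_relation (K := K) y (n := n + 1) (by omega)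
    (Fin.snoc (α := fun _ => F) (fun i => (u i : F)) (x : F))
  obtain ⟨c, Q, hc0, hQ, i₂, hi₂⟩ := exists_scale_poly A P ⟨i₁, fun h => hi₁ (by rw [h, map_zero])⟩
  have hrel2 : ∑ i, aeval y ((Q i).map A.subtype) *
      (Fin.snoc (α := fun _ => F) (fun i => (u i : F)) (x : F) i : F) = 0 := by
    have h1 : algebraMap K F c * ∑ i, aeval y ((Q i).map A.subtype) *
      (Fin.snoc (α := fun _ => F) (fun i => (u i : F)) (x : F) i : F) = 0 := by
      rw [← hrel, Finset.mul_sum]
      apply Finset.sum_congr rfl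
      intro i _
      rw [hQ i, map_mul, aeval_C, mul_assoc]
    exact (mul_eq_zero.mp h1).resolve_left
      ((map_ne_zero_iff _ (algebraMap K F).injective).mpr hc0)
  choose h₁ h₂ using fun i => gaussRho_aeval (hF := hF) (⟨y, hy⟩ : gaussVal hℓ hA ι hF) (Q i)
  -- reduce the relation
  rw [Fin.sum_univ_castSucc] at hrel2
  simp only [Fin.snoc_castSucc, Fin.snoc_last] at hrel2
  have hred : ∑ i : Fin n, aeval (ι' y')
      ((Q i.castSucc).map (IsLocalRing.residue A)) * ι' (e i) +
      aeval (ι' y') ((Q (Fin.last n)).map (IsLocalRing.residue A)) *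
        gaussRho hℓ hA ι hF x = 0 := by
    have h3 : (∑ i : Fin n, (⟨_, h₁ i.castSucc⟩ : gaussVal hℓ hA ι hF) * u i) +
        (⟨_, h₁ (Fin.last n)⟩ : gaussVal hℓ hA ι hF) * x = 0 := by
      apply Subtype.ext
      push_cast
      exact hrel2
    have h4 := congrArg (gaussRho hℓ hA ι hF) h3
    rw [map_add, map_sum, map_zero, map_mul] at h4
    simp only [map_mul, hu] at h4
    rw [← h4]
    congr 1
    · apply Finset.sum_congr rfl
      intro i _
      rw [h₂, hyy']
    · rw [h₂, hyy']
  have haev : ∀ R : k[X], aeval (ι' y') R = ι' (aeval y' R) := by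
    intro R
    exact Polynomial.aeval_algHom_apply ι' y' R
  by_cases hlast : (Q (Fin.last n)).map (IsLocalRing.residue A) = 0
  · exfalso
    rw [hlast, map_zero, zero_mul, add_zero] at hred
    have h5 : ∑ i : Fin n, (aeval y' ((Q i.castSucc).map (IsLocalRing.residue A))) * e i = 0 := by
      apply (show Function.Injective ι' from ι'.injective)
      rw [map_sum, map_zero, ← hred]
      apply Finset.sum_congr rfl
      intro i _
      rw [haev, map_mul]
    have h6 : ∀ i : Fin n, aeval y' ((Q i.castSucc).map (IsLocalRing.residue A)) ∈ k⟮y'⟯ :=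
      fun i =>
      (IntermediateField.mem_adjoin_simple_iff k _).mpr
        ⟨(Q i.castSucc).map (IsLocalRing.residue A), 1, by simp⟩
    have h7 := Fintype.linearIndependent_iff.mp he (fun i => ⟨_, h6 i⟩) (by
      rw [← h5]
      apply Finset.sum_congr rfl
      intro i _
      rw [IntermediateField.smul_def, smul_eq_mul])
    -- all polynomials vanish
    have h8 : ∀ i, (Q i).map (IsLocalRing.residue A) = 0 := by
      intro i
      refine Fin.lastCases hlast (fun i => ?_) i
      have h9 := congrArg Subtype.val (h7 i)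
      by_contra h10
      exact htr ⟨_, h10, h9⟩
    exact hi₂ (h8 i₂)
  · have h5 : aeval y' ((Q (Fin.last n)).map (IsLocalRing.residue A)) ≠ 0 := fun h =>
      htr ⟨_, hlast, h⟩
    refine ⟨-(∑ i : Fin n, (aeval y' ((Q i.castSucc).map (IsLocalRing.residue A))) * e i) /
          aeval y' ((Q (Fin.last n)).map (IsLocalRing.residue A)), ?_⟩
    have h7 : ι' (aeval y' ((Q (Fin.last n)).map (IsLocalRing.residue A))) ≠ 0 :=
      (map_ne_zero_iff _ ι'.injective).mpr h5
    rw [map_div₀, eq_comm, eq_div_iff h7, ← haev, mul_comm, map_neg, map_sum]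
    simp only [haev, map_mul] at hred ⊢
    exact eq_neg_of_add_eq_zero_right hred

end Range

end Fermat.Agent.GaussVal
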