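import Mathlib
import Fermat.Agent.GaussVal.Range
import Fermat.Agent.Deuring.Data

set_option autoImplicit false

noncomputable section

/-! The concrete `Deuring.GaussData` attached to the Gauss valuation on a function field
`F ⊂ K((q))` and a function field `F' ⊂ k((q))`. -/

open ModularCurve HahnSeries Module Polynomial
open scoped IntermediateField

namespace Fermat.Agent.GaussVal

section Data

variable {K : Type*} [Field K] {A : ValuationSubring K} {ℓ : ℕ}
variable [CharZero K] [Algebra.IsAlgebraic ℚ K]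
variable {F : Type*} [Field F] [Algebra K F]
variable {F' : Type*} [Field F'] [Algebra (IsLocalRing.ResidueField A) F']

/-- The reduction map with values in `F'`. -/
def rhoTo (hℓ : ℓ.Prime) (hA : A.LiesOverPrime ℓ) (ι : F →ₐ[K] LaurentSeries K)
    (hF : ∀ x, ι x ∈ intField K)
    (ι' : F' →ₐ[IsLocalRing.ResidueField A] LaurentSeries (IsLocalRing.ResidueField A))
    (hr : ∀ x : gaussVal hℓ hA ι hF, ∃ z : F', ι' z = gaussRho hℓ hA ι hF x) :
    gaussVal hℓ hA ι hF →+* F' where
  toFun x := (hr x).choose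
  map_one' := (show Function.Injective ι' from ι'.injective)
    (by rw [(hr 1).choose_spec, map_one, map_one])
  map_mul' x y := (show Function.Injective ι' from ι'.injective)
    (by rw [(hr (x * y)).choose_spec, map_mul, map_mul, (hr x).choose_spec, (hr y).choose_spec])
  map_zero' := (show Function.Injective ι' from ι'.injective)
    (by rw [(hr 0).choose_spec, map_zero, map_zero])
  map_add' x y := (show Function.Injective ι' from ι'.injective)
    (by rw [(hr (x + y)).choose_spec, map_add, map_add, (hr x).choose_spec, (hr y).choose_spec])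

theorem emb_rhoTo {hℓ : ℓ.Prime} {hA : A.LiesOverPrime ℓ} {ι : F →ₐ[K] LaurentSeries K}
    {hF : ∀ x, ι x ∈ intField K}
    {ι' : F' →ₐ[IsLocalRing.ResidueField A] LaurentSeries (IsLocalRing.ResidueField A)}
    {hr : ∀ x : gaussVal hℓ hA ι hF, ∃ z : F', ι' z = gaussRho hℓ hA ι hF x}
    (x : gaussVal hℓ hA ι hF) :
    ι' (rhoTo hℓ hA ι hF ι' hr x) = gaussRho hℓ hA ι hF x :=
  (hr x).choose_spec

theorem gaussRho_algebraMap {hℓ : ℓ.Prime} {hA : A.LiesOverPrime ℓ} {ι : F →ₐ[K] LaurentSeries K}
    {hF : ∀ x, ι x ∈ intField K} (a : A) (h : algebraMap K F a ∈ gaussVal hℓ hA ι hF) :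
    gaussRho hℓ hA ι hF ⟨algebraMap K F a, h⟩ =
      algebraMap (IsLocalRing.ResidueField A) _ (IsLocalRing.residue A a) := by
  rw [gaussRho_apply, ← gaussRed_algebraMap a.2]
  congr 1
  exact Subtype.ext (AlgHom.commutes ι _)

/-- The concrete reduction data. -/
def gaussData (hℓ : ℓ.Prime) (hA : A.LiesOverPrime ℓ) (ι : F →ₐ[K] LaurentSeries K)
    (hF : ∀ x, ι x ∈ intField K)
    (ι' : F' →ₐ[IsLocalRing.ResidueField A] LaurentSeries (IsLocalRing.ResidueField A))
    (hr : ∀ x : gaussVal hℓ hA ι hF, ∃ z : F', ι' z = gaussRho hℓ hA ι hF x)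
    (hs : ∀ z : F', ∃ x : gaussVal hℓ hA ι hF, gaussRho hℓ hA ι hF x = ι' z) :
    Deuring.GaussData K F (IsLocalRing.ResidueField A) F' where
  A := A
  res := IsLocalRing.residue A
  res_surj := IsLocalRing.residue_surjective
  res_eq_zero_iff a := by
    rw [IsLocalRing.residue_eq_zero_iff, ValuationSubring.mem_nonunits_iff]
    exact A.valuation_lt_one_iff a
  O := gaussVal hℓ hA ι hF
  ρ := rhoTo hℓ hA ι hF ι' hr
  ρ_surj z := by
    obtain ⟨x, hx⟩ := hs z
    refine ⟨x, (show Function.Injective ι' from ι'.injective) ?_⟩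
    rw [emb_rhoTo, hx]
  ρ_eq_zero_iff x := by
    rw [← gaussRho_eq_zero_iff, ← emb_rhoTo (ι' := ι') (hr := hr)]
    exact (map_eq_zero_iff ι' (show Function.Injective ι' from ι'.injective)).symm
  mem_O_iff a := by
    rw [mem_gaussVal, AlgHom.commutes]
    exact algebraMap_mem_gaussSubring_iff
  ρ_algebraMap a := by
    apply (show Function.Injective ι' from ι'.injective)
    refine (emb_rhoTo _).trans ?_
    refine (gaussRho_algebraMap a _).trans ?_
    exact (AlgHom.commutes ι' _).symm
  ortho V _ := by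
    obtain ⟨b, hb, hli⟩ := ortho hℓ hA hF V
    refine ⟨b, hb, ?_⟩
    rw [Fintype.linearIndependent_iff]
    intro g hg
    apply hli g
    have h1 := congrArg ι' hg
    rw [map_sum, map_zero] at h1
    rw [← h1]
    apply Finset.sum_congr rfl
    intro i _
    rw [Algebra.smul_def, map_mul, AlgHom.commutes, emb_rhoTo]

end Data

end Fermat.Agent.GaussVal
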