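import Mathlib
import Fermat.Prelude.Def_ModularCurve_ReductionModL

set_option autoImplicit false

noncomputable section

/-! Shortcut instances: instance search for `Algebra (ResidueField A) E` is very slow for
intermediate fields `E` of `k((q))`.  Use with `open scoped Fermat.Agent.GaussVal`. -/

open ModularCurve

namespace Fermat.Agent.GaussVal

variable {K : Type*} [Field K]

set_option synthInstance.maxHeartbeats 400000 in
/-- shortcut -/
scoped instance (priority := 20000) instAlgResLaurent (A : ValuationSubring K) :
    Algebra (IsLocalRing.ResidueField A) (LaurentSeries (IsLocalRing.ResidueField A)) :=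
  HahnSeries.powerSeriesAlgebra (Γ := ℤ) (R := IsLocalRing.ResidueField A)
    (S := IsLocalRing.ResidueField A)

set_option synthInstance.maxHeartbeats 400000 in
/-- shortcut -/
scoped instance (priority := 20000) instAlgResInter (A : ValuationSubring K)
    (E : IntermediateField (IsLocalRing.ResidueField A)
      (LaurentSeries (IsLocalRing.ResidueField A))) :
    Algebra (IsLocalRing.ResidueField A) E :=
  SubalgebraClass.toAlgebra E

/-- shortcut -/
scoped instance (priority := 20000) instFieldResInter (A : ValuationSubring K)
    (E : IntermediateField (IsLocalRing.ResidueField A)
      (LaurentSeries (IsLocalRing.ResidueField A))) :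
    Field E := IntermediateField.toField E

example (A : ValuationSubring K) (N : ℕ) : Algebra (IsLocalRing.ResidueField A)
  (modularFunctionFieldFullC (IsLocalRing.ResidueField A) N) := inferInstance

end Fermat.Agent.GaussVal
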