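import Mathlib
import Fermat.Prelude.Def_ModularCurve_ReductionModL
import Fermat.Agent.GaussVal.Data
import Fermat.Agent.GaussVal.Inst
import Fermat.Agent.S28_Residual

set_option autoImplicit false

noncomputable section

/-! The concrete `Deuring.GaussData` on the function field of `X₀(N)`. -/

open ModularCurve HahnSeries Module Polynomial
open scoped IntermediateField

namespace Fermat.Agent.GaussVal

section Gen

variable {K : Type*} [Field K] {A : ValuationSubring K} {ℓ : ℕ}
variable [CharZero K] [Algebra.IsAlgebraic ℚ K]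
variable {F : Type*} [Field F] [Algebra K F]

/-- reduction of an element with `A`-integral expansion -/
theorem gaussRho_incl {hℓ : ℓ.Prime} {hA : A.LiesOverPrime ℓ}
    {ι : F →ₐ[K] LaurentSeries K} {hF : ∀ x, ι x ∈ intField K} {x : F} {Y : LaurentSeries A}
    (hx : ι x = incl A Y) :
    ∃ h : x ∈ gaussVal hℓ hA ι hF, gaussRho hℓ hA ι hF ⟨x, h⟩ = redS A Y := by
  have h : x ∈ gaussVal hℓ hA ι hF := by
    rw [mem_gaussVal, hx]
    exact incl_mem Y
  refine ⟨h, ?_⟩
  rw [gaussRho_apply, ← gaussRed_incl Y (incl_mem Y)]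
  congr 1
  exact Subtype.ext hx

/-- reduction of an element with integral expansion -/
theorem gaussRho_int {hℓ : ℓ.Prime} {hA : A.LiesOverPrime ℓ}
    {ι : F →ₐ[K] LaurentSeries K} {hF : ∀ x, ι x ∈ intField K} {x : F} {Y : LaurentSeries ℤ}
    (hx : ι x = coeffMap (Int.castRingHom K) Y) :
    ∃ h : x ∈ gaussVal hℓ hA ι hF, gaussRho hℓ hA ι hF ⟨x, h⟩ =
      coeffMap (Int.castRingHom (IsLocalRing.ResidueField A)) Y := by
  obtain ⟨h, h'⟩ := gaussRho_incl (hℓ := hℓ) (hA := hA) (hF := hF) (x := x)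
    (Y := coeffMap (Int.castRingHom A) Y) (by
      rw [hx]
      ext n
      simp)
  refine ⟨h, h'.trans ?_⟩
  ext n
  simp

theorem gaussRho_jd {hℓ : ℓ.Prime} {hA : A.LiesOverPrime ℓ}
    {ι : F →ₐ[K] LaurentSeries K} {hF : ∀ x, ι x ∈ intField K} {x : F} {d : ℕ} [NeZero d]
    (hx : ι x = qExpand K d (jqModC K)) :
    ∃ h : x ∈ gaussVal hℓ hA ι hF, gaussRho hℓ hA ι hF ⟨x, h⟩ =
      qExpand (IsLocalRing.ResidueField A) d (jqModC (IsLocalRing.ResidueField A)) := by
  obtain ⟨h, h'⟩ := gaussRho_int (hℓ := hℓ) (hA := hA) (hF := hF) (x := x)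
    (Y := qExpand ℤ d (jqModC ℤ)) (by rw [hx, coeffMap_qExpand, coeffMap_jqModC])
  exact ⟨h, h'.trans (by rw [coeffMap_qExpand, coeffMap_jqModC])⟩

/-- the image of the reduction map is a subfield containing `k`. -/
theorem exists_gaussRho_of_mem_adjoin {hℓ : ℓ.Prime} {hA : A.LiesOverPrime ℓ}
    {ι : F →ₐ[K] LaurentSeries K} {hF : ∀ x, ι x ∈ intField K}
    {S : Set (LaurentSeries (IsLocalRing.ResidueField A))}
    (hS : ∀ s ∈ S, ∃ x : gaussVal hℓ hA ι hF, gaussRho hℓ hA ι hF x = s)
    {z : LaurentSeries (IsLocalRing.ResidueField A)}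
    (hz : z ∈ IntermediateField.adjoin (IsLocalRing.ResidueField A) S) :
    ∃ x : gaussVal hℓ hA ι hF, gaussRho hℓ hA ι hF x = z := by
  induction hz using IntermediateField.adjoin_induction with
  | mem s hs => exact hS s hs
  | algebraMap c =>
    obtain ⟨a, rfl⟩ := IsLocalRing.residue_surjective c
    have ha : algebraMap K F a ∈ gaussVal hℓ hA ι hF := by
      rw [mem_gaussVal, AlgHom.commutes]
      exact algebraMap_mem_gaussSubring a.2
    exact ⟨⟨_, ha⟩, gaussRho_algebraMap a ha⟩
  | add x y _ _ hx hy =>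
    obtain ⟨a, rfl⟩ := hx
    obtain ⟨b, rfl⟩ := hy
    exact ⟨a + b, map_add _ _ _⟩
  | mul x y _ _ hx hy =>
    obtain ⟨a, rfl⟩ := hx
    obtain ⟨b, rfl⟩ := hy
    exact ⟨a * b, map_mul _ _ _⟩
  | inv x _ hx =>
    obtain ⟨a, rfl⟩ := hx
    rcases eq_or_ne (gaussRho hℓ hA ι hF a) 0 with h0 | h0
    · exact ⟨0, by rw [map_zero, h0, inv_zero]⟩
    · obtain ⟨h, h'⟩ := gaussRho_inv h0
      exact ⟨_, h'⟩

end Gen

section Trans

variable (k : Type*) [Field k]

/-- the element `j` of the function field -/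
def jEl (E : IntermediateField k (LaurentSeries k)) (N : ℕ)
    (hE : E = modularFunctionFieldFullC k N) : E :=
  ⟨jqModC k, by rw [hE]; exact jqModC_mem_full k N⟩

@[simp]
theorem coe_jEl (E : IntermediateField k (LaurentSeries k)) (N : ℕ)
    (hE : E = modularFunctionFieldFullC k N) : (jEl k E N hE : LaurentSeries k) = jqModC k := rfl

theorem transcendental_jqModC : Transcendental k (jqModC k) :=
  S28aux.transcendental_of_order (by rw [S28aux.order_jqModC]; norm_num)

theorem transcendental_jEl (E : IntermediateField k (LaurentSeries k)) (N : ℕ)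
    (hE : E = modularFunctionFieldFullC k N) : Transcendental k (jEl k E N hE) := by
  rw [← transcendental_algebraMap_iff (algebraMap E (LaurentSeries k)).injective]
  exact transcendental_jqModC k

end Trans

section Modular

variable {K : Type*} [Field K] {A : ValuationSubring K} {ℓ : ℕ}
variable [CharZero K] [Algebra.IsAlgebraic ℚ K]

omit [CharZero K] [Algebra.IsAlgebraic ℚ K] in
theorem val_mem_intField {E : IntermediateField K (LaurentSeries K)} {N : ℕ}
    (hE : E = modularFunctionFieldFullC K N) (x : E) : E.val x ∈ intField K := by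
  exact fullC_le_intField N (hE.le x.2)

/-- every element of the function field of `X₀(N)` over `k` is a reduction. -/
theorem exists_gaussRho_full {hℓ : ℓ.Prime} {hA : A.LiesOverPrime ℓ}
    {E : IntermediateField K (LaurentSeries K)} {N : ℕ} (hE : E = modularFunctionFieldFullC K N)
    (z : LaurentSeries (IsLocalRing.ResidueField A))
    (hz : z ∈ modularFunctionFieldFullC (IsLocalRing.ResidueField A) N) :
    ∃ x : gaussVal hℓ hA E.val (val_mem_intField hE),
      gaussRho hℓ hA E.val (val_mem_intField hE) x = z := by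
  rw [modularFunctionFieldFullC] at hz
  refine exists_gaussRho_of_mem_adjoin ?_ hz
  rintro s ⟨d, hne, hd, rfl⟩
  have h1 : qExpand K d (jqModC K) ∈ E := by
    rw [hE]
    exact jqModCd_mem_full K N hd
  obtain ⟨h, h'⟩ := gaussRho_jd (hℓ := hℓ) (hA := hA) (ι := E.val) (hF := val_mem_intField hE)
    (x := (⟨_, h1⟩ : E)) (d := d) rfl
  exact ⟨_, h'⟩

theorem gaussRho_mem_full {hℓ : ℓ.Prime} {hA : A.LiesOverPrime ℓ}
    {E : IntermediateField K (LaurentSeries K)} {N : ℕ} (hE : E = modularFunctionFieldFullC K N)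
    [FiniteDimensional K⟮jEl K E N hE⟯ E]
    (hdeg : finrank K⟮jEl K E N hE⟯ E ≤ finrank
      (IsLocalRing.ResidueField A)⟮jEl (IsLocalRing.ResidueField A) _ N rfl⟯
        (modularFunctionFieldFullC (IsLocalRing.ResidueField A) N))
    (x : gaussVal hℓ hA E.val (val_mem_intField hE)) :
    ∃ z : modularFunctionFieldFullC (IsLocalRing.ResidueField A) N,
      (modularFunctionFieldFullC (IsLocalRing.ResidueField A) N).val z =
        gaussRho hℓ hA E.val (val_mem_intField hE) x := by
  obtain ⟨hj, hj'⟩ := gaussRho_jd (hℓ := hℓ) (hA := hA) (ι := E.val) (hF := val_mem_intField hE)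
    (x := jEl K E N hE) (d := 1) (by rw [qExpand_one_apply]; rfl)
  refine gaussRho_mem (hF := val_mem_intField hE)
    (modularFunctionFieldFullC (IsLocalRing.ResidueField A) N).val (jEl K E N hE) hj
    (jEl (IsLocalRing.ResidueField A) _ N rfl) ?_ (transcendental_jEl _ _ _ _) hdeg ?_ x
  · rw [hj', qExpand_one_apply]
    rfl
  · intro z
    exact exists_gaussRho_full hE z.1 z.2

/-- THE CONCRETE REDUCTION DATA on the function field of `X₀(N)`, from the degree comparison
`[F_N : K(j)] ≤ [F̃_N : k(j)]`. -/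
def modGauss (hℓ : ℓ.Prime) (hA : A.LiesOverPrime ℓ)
    (E : IntermediateField K (LaurentSeries K)) (N : ℕ) (hE : E = modularFunctionFieldFullC K N)
    [FiniteDimensional K⟮jEl K E N hE⟯ E]
    (hdeg : finrank K⟮jEl K E N hE⟯ E ≤ finrank
      (IsLocalRing.ResidueField A)⟮jEl (IsLocalRing.ResidueField A) _ N rfl⟯
        (modularFunctionFieldFullC (IsLocalRing.ResidueField A) N)) :
    Deuring.GaussData K E (IsLocalRing.ResidueField A)
      (modularFunctionFieldFullC (IsLocalRing.ResidueField A) N) :=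
  gaussData hℓ hA E.val (val_mem_intField hE)
    (modularFunctionFieldFullC (IsLocalRing.ResidueField A) N).val
    (gaussRho_mem_full hE hdeg) (fun z => exists_gaussRho_full hE z.1 z.2)

section API

variable {hℓ : ℓ.Prime} {hA : A.LiesOverPrime ℓ}
    {E : IntermediateField K (LaurentSeries K)} {N : ℕ} {hE : E = modularFunctionFieldFullC K N}
    [FiniteDimensional K⟮jEl K E N hE⟯ E]
    {hdeg : finrank K⟮jEl K E N hE⟯ E ≤ finrank
      (IsLocalRing.ResidueField A)⟮jEl (IsLocalRing.ResidueField A) _ N rfl⟯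
        (modularFunctionFieldFullC (IsLocalRing.ResidueField A) N)}

theorem modGauss_A : (modGauss hℓ hA E N hE hdeg).A = A := rfl

theorem mem_modGauss_O {x : E} :
    x ∈ (modGauss hℓ hA E N hE hdeg).O ↔ (x : LaurentSeries K) ∈ gaussSubring A := Iff.rfl

/-- the reduction map is the reduction of Laurent series -/
theorem coe_modGauss_ρ (x : (modGauss hℓ hA E N hE hdeg).O) :
    ((modGauss hℓ hA E N hE hdeg).ρ x : LaurentSeries (IsLocalRing.ResidueField A)) =
      gaussRed A ⟨((x : E) : LaurentSeries K), x.2⟩ :=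
  emb_rhoTo (hF := val_mem_intField hE) (hr := gaussRho_mem_full hE hdeg) x

/-- the reduction of an element with `A`-integral `q`-expansion -/
theorem modGauss_ρ_incl {x : E} {Y : LaurentSeries A} (hx : (x : LaurentSeries K) = incl A Y) :
    ∃ h : x ∈ (modGauss hℓ hA E N hE hdeg).O,
      ((modGauss hℓ hA E N hE hdeg).ρ ⟨x, h⟩ : LaurentSeries (IsLocalRing.ResidueField A)) =
        redS A Y := by
  have h : x ∈ (modGauss hℓ hA E N hE hdeg).O := by
    rw [mem_modGauss_O, hx]
    exact incl_mem Y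
  refine ⟨h, ?_⟩
  rw [coe_modGauss_ρ, ← gaussRed_incl Y (incl_mem Y)]
  congr 1
  exact Subtype.ext hx

end API

end Modular

end Fermat.Agent.GaussVal
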